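import Fermat.Agent.S30.H76.CycloChar

/-!
# S31 / S30 (helper76): the mod `p ^ n` cyclotomic character of `Gal(ℚ̄/ℚ)`

* `cycloCharMod p n : Gal(ℚ̄/ℚ) →* (ZMod (p ^ n))ˣ`, the reduction of the `p`-adic cyclotomic
  character, with its values at Frobenius elements, inertia, complex conjugation and its finite
  level;
* `cycLeaf p hp`: the statement `CycLeaf p` of helper34's `S31/H34/Leaves.lean`, unfolded
  verbatim;
* `cycloInt p n : Gal(ℚ̄/ℚ) → ℤ`, an integer lift of `cycloCharMod p n`, with the same facts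
  as divisibilities by `p ^ n` (the shape `e : ℕ → G → ℤ` of the trace-limit core of S30).
-/

set_option autoImplicit false

open scoped Padic

namespace Fermat.Agent.S31.H76

open Fermat.Agent.S30.H76

local notation "Qbar" => AlgebraicClosure ℚ
local notation "Γ" => (AlgebraicClosure ℚ ≃ₐ[ℚ] AlgebraicClosure ℚ)

section Mod

variable (p : ℕ) [Fact p.Prime] (n : ℕ)

/-- The mod `p ^ n` cyclotomic character of `Gal(ℚ̄/ℚ)`. -/
noncomputable def cycloCharMod : Γ →* (ZMod (p ^ n))ˣ :=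
  (Units.map (PadicInt.toZModPow n : ℤ_[p] →+* ZMod (p ^ n)).toMonoidHom).comp (cycloChar p)

theorem cycloCharMod_coe (σ : Γ) :
    ((cycloCharMod p n σ : (ZMod (p ^ n))ˣ) : ZMod (p ^ n)) =
      PadicInt.toZModPow n (cycloChar p σ : ℤ_[p]) := rfl

/-- The defining property: `σ ζ = ζ ^ ε_n(σ)` on the `p ^ n`-th roots of unity. -/
theorem cycloCharMod_spec (σ : Γ) {ζ : Qbar} (hζ : ζ ^ p ^ n = 1) :
    σ ζ = ζ ^ ((cycloCharMod p n σ : (ZMod (p ^ n))ˣ) : ZMod (p ^ n)).val := by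
  rw [cycloCharMod_coe]
  exact cycloChar_spec p σ hζ

/-- `ε_n` has finite level. -/
theorem exists_finite_level_cycloCharMod :
    ∃ E : IntermediateField ℚ Qbar, FiniteDimensional ℚ E ∧
      ∀ σ : Γ, (∀ a ∈ E, σ a = a) → cycloCharMod p n σ = 1 := by
  obtain ⟨E, hE, h⟩ := exists_finite_level_cycloChar p n
  refine ⟨E, hE, fun σ hσ => Units.ext ?_⟩
  rw [cycloCharMod_coe, h σ hσ, Units.val_one]

/-- `ε_n(σ) = ℓ` for a Frobenius element `σ` at a prime `ℓ ≠ p`. -/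
theorem cycloCharMod_of_isFrobeniusAt {l : ℕ} (hl : l.Prime) (hlp : l ≠ p)
    {A : ValuationSubring Qbar} (hA : A.LiesOverPrime l) {σ : Γ} (hσ : A.IsFrobeniusAt σ l) :
    ((cycloCharMod p n σ : (ZMod (p ^ n))ˣ) : ZMod (p ^ n)) = (l : ZMod (p ^ n)) := by
  rw [cycloCharMod_coe, cycloChar_of_isFrobeniusAt p hl hlp hA hσ, map_natCast]

/-- `ε_n` is trivial on inertia at the primes `q ≠ p`. -/
theorem cycloCharMod_of_mem_inertia {q : ℕ} (hq : q.Prime) (hqp : q ≠ p)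
    {A : ValuationSubring Qbar} (hA : A.LiesOverPrime q) {σ : Γ}
    (hσ : σ ∈ A.inertiaSubgroupIn ℚ) : cycloCharMod p n σ = 1 := by
  rw [cycloCharMod, MonoidHom.comp_apply, cycloChar_of_mem_inertia p hq hqp hA hσ, map_one]

/-- `ε_n(c) = -1` for complex conjugation `c`. -/
theorem cycloCharMod_complexConjugation :
    ((cycloCharMod p n complexConjugation : (ZMod (p ^ n))ˣ) : ZMod (p ^ n)) = -1 := by
  rw [cycloCharMod_coe, cycloChar_complexConjugation p, map_neg, map_one]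

end Mod

/-- **(CYC)**: the statement `CycLeaf p` of `Fermat/Agent/S31/H34/Leaves.lean`, unfolded. -/
theorem cycLeaf (p : ℕ) (hp : p.Prime) :
    ∀ n : ℕ, ∃ ε : (AlgebraicClosure ℚ ≃ₐ[ℚ] AlgebraicClosure ℚ) →* (ZMod (p ^ n))ˣ,
      (∃ E : IntermediateField ℚ (AlgebraicClosure ℚ), FiniteDimensional ℚ E ∧
        ∀ σ : AlgebraicClosure ℚ ≃ₐ[ℚ] AlgebraicClosure ℚ, (∀ a ∈ E, σ a = a) → ε σ = 1) ∧
      (∀ ℓ : ℕ, ℓ.Prime → ℓ ≠ p →
        ∀ A : ValuationSubring (AlgebraicClosure ℚ), A.LiesOverPrime ℓ →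
        ∀ σ : AlgebraicClosure ℚ ≃ₐ[ℚ] AlgebraicClosure ℚ, A.IsFrobeniusAt σ ℓ →
          ((ε σ : (ZMod (p ^ n))ˣ) : ZMod (p ^ n)) = (ℓ : ZMod (p ^ n))) ∧
      (∀ q : ℕ, q.Prime → q ≠ p →
        ∀ A : ValuationSubring (AlgebraicClosure ℚ), A.LiesOverPrime q →
        ∀ σ ∈ A.inertiaSubgroupIn ℚ, ε σ = 1) := by
  intro n
  have : Fact p.Prime := ⟨hp⟩
  exact ⟨cycloCharMod p n, exists_finite_level_cycloCharMod p n,
    fun ℓ hℓ hℓp A hA σ hσ => cycloCharMod_of_isFrobeniusAt p n hℓ hℓp hA hσ,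
    fun q hq hqp A hA σ hσ => cycloCharMod_of_mem_inertia p n hq hqp hA hσ⟩

/-- **(CYC)** with the complex-conjugation clause added. -/
theorem cycLeaf' (p : ℕ) (hp : p.Prime) :
    ∀ n : ℕ, ∃ ε : (AlgebraicClosure ℚ ≃ₐ[ℚ] AlgebraicClosure ℚ) →* (ZMod (p ^ n))ˣ,
      (∃ E : IntermediateField ℚ (AlgebraicClosure ℚ), FiniteDimensional ℚ E ∧
        ∀ σ : AlgebraicClosure ℚ ≃ₐ[ℚ] AlgebraicClosure ℚ, (∀ a ∈ E, σ a = a) → ε σ = 1) ∧
      (∀ ℓ : ℕ, ℓ.Prime → ℓ ≠ p →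
        ∀ A : ValuationSubring (AlgebraicClosure ℚ), A.LiesOverPrime ℓ →
        ∀ σ : AlgebraicClosure ℚ ≃ₐ[ℚ] AlgebraicClosure ℚ, A.IsFrobeniusAt σ ℓ →
          ((ε σ : (ZMod (p ^ n))ˣ) : ZMod (p ^ n)) = (ℓ : ZMod (p ^ n))) ∧
      (∀ q : ℕ, q.Prime → q ≠ p →
        ∀ A : ValuationSubring (AlgebraicClosure ℚ), A.LiesOverPrime q →
        ∀ σ ∈ A.inertiaSubgroupIn ℚ, ε σ = 1) ∧
      ((ε complexConjugation : (ZMod (p ^ n))ˣ) : ZMod (p ^ n)) = -1 ∧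
      ∀ (σ : AlgebraicClosure ℚ ≃ₐ[ℚ] AlgebraicClosure ℚ) (ζ : AlgebraicClosure ℚ),
        ζ ^ p ^ n = 1 → σ ζ = ζ ^ ((ε σ : (ZMod (p ^ n))ˣ) : ZMod (p ^ n)).val := by
  intro n
  have : Fact p.Prime := ⟨hp⟩
  exact ⟨cycloCharMod p n, exists_finite_level_cycloCharMod p n,
    fun ℓ hℓ hℓp A hA σ hσ => cycloCharMod_of_isFrobeniusAt p n hℓ hℓp hA hσ,
    fun q hq hqp A hA σ hσ => cycloCharMod_of_mem_inertia p n hq hqp hA hσ,
    cycloCharMod_complexConjugation p n, fun σ ζ hζ => cycloCharMod_spec p n σ hζ⟩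

section IntLift

variable (p : ℕ) [Fact p.Prime] (n : ℕ)

/-- An integer lift of the mod `p ^ n` cyclotomic character. -/
noncomputable def cycloInt (σ : Γ) : ℤ :=
  (((cycloCharMod p n σ : (ZMod (p ^ n))ˣ) : ZMod (p ^ n)).val : ℤ)

theorem cycloInt_cast (σ : Γ) :
    ((cycloInt p n σ : ℤ) : ZMod (p ^ n)) = ((cycloCharMod p n σ : (ZMod (p ^ n))ˣ) : ZMod (p ^ n)) := by
  have : NeZero (p ^ n) := ⟨pow_ne_zero n (Fact.out : p.Prime).ne_zero⟩
  rw [cycloInt, Int.cast_natCast, ZMod.natCast_zmod_val]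

omit [Fact p.Prime] in
/-- Divisibility by `p ^ n` of an integer, in terms of its image in `ZMod (p ^ n)`. -/
theorem pow_dvd_iff_cast_eq_zero (a : ℤ) :
    ((p : ℤ) ^ n ∣ a) ↔ ((a : ℤ) : ZMod (p ^ n)) = 0 := by
  rw [ZMod.intCast_zmod_eq_zero_iff_dvd]
  push_cast
  rfl

/-- The defining property: `σ ζ = ζ ^ e_n(σ)` on the `p ^ n`-th roots of unity. -/
theorem cycloInt_spec (σ : Γ) {ζ : Qbar} (hζ : ζ ^ p ^ n = 1) :
    σ ζ = ζ ^ (cycloInt p n σ) := by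
  rw [cycloInt, zpow_natCast]
  exact cycloCharMod_spec p n σ hζ

theorem cycloInt_one : (p : ℤ) ^ n ∣ cycloInt p n 1 - 1 := by
  rw [pow_dvd_iff_cast_eq_zero, Int.cast_sub, cycloInt_cast, map_one, Units.val_one, Int.cast_one,
    sub_self]

theorem cycloInt_mul (σ τ : Γ) :
    (p : ℤ) ^ n ∣ cycloInt p n (σ * τ) - cycloInt p n σ * cycloInt p n τ := by
  rw [pow_dvd_iff_cast_eq_zero, Int.cast_sub, Int.cast_mul, cycloInt_cast, cycloInt_cast,
    cycloInt_cast, map_mul, Units.val_mul, sub_self]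

theorem cycloInt_of_isFrobeniusAt {l : ℕ} (hl : l.Prime) (hlp : l ≠ p)
    {A : ValuationSubring Qbar} (hA : A.LiesOverPrime l) {σ : Γ} (hσ : A.IsFrobeniusAt σ l) :
    (p : ℤ) ^ n ∣ cycloInt p n σ - (l : ℤ) := by
  rw [pow_dvd_iff_cast_eq_zero, Int.cast_sub, cycloInt_cast,
    cycloCharMod_of_isFrobeniusAt p n hl hlp hA hσ, Int.cast_natCast, sub_self]

theorem cycloInt_of_mem_inertia {q : ℕ} (hq : q.Prime) (hqp : q ≠ p)
    {A : ValuationSubring Qbar} (hA : A.LiesOverPrime q) {σ : Γ}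
    (hσ : σ ∈ A.inertiaSubgroupIn ℚ) : (p : ℤ) ^ n ∣ cycloInt p n σ - 1 := by
  rw [pow_dvd_iff_cast_eq_zero, Int.cast_sub, cycloInt_cast,
    cycloCharMod_of_mem_inertia p n hq hqp hA hσ, Units.val_one, Int.cast_one, sub_self]

theorem cycloInt_complexConjugation : (p : ℤ) ^ n ∣ cycloInt p n complexConjugation + 1 := by
  rw [pow_dvd_iff_cast_eq_zero, Int.cast_add, cycloInt_cast, cycloCharMod_complexConjugation,
    Int.cast_one, neg_add_cancel]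

/-- Finite level of the integer lift, in coset form. -/
theorem exists_finite_level_cycloInt :
    ∃ E : IntermediateField ℚ Qbar, FiniteDimensional ℚ E ∧
      ∀ σ : Γ, (∀ a ∈ E, σ a = a) →
        (p : ℤ) ^ n ∣ cycloInt p n σ - 1 ∧
        ∀ τ : Γ, (p : ℤ) ^ n ∣ cycloInt p n (τ * σ) - cycloInt p n τ ∧
          (p : ℤ) ^ n ∣ cycloInt p n (σ * τ) - cycloInt p n τ := by
  obtain ⟨E, hE, h⟩ := exists_finite_level_cycloCharMod p n
  refine ⟨E, hE, fun σ hσ => ⟨?_, fun τ => ⟨?_, ?_⟩⟩⟩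
  · rw [pow_dvd_iff_cast_eq_zero, Int.cast_sub, cycloInt_cast, h σ hσ, Units.val_one,
      Int.cast_one, sub_self]
  · rw [pow_dvd_iff_cast_eq_zero, Int.cast_sub, cycloInt_cast, cycloInt_cast, map_mul, h σ hσ,
      mul_one, sub_self]
  · rw [pow_dvd_iff_cast_eq_zero, Int.cast_sub, cycloInt_cast, cycloInt_cast, map_mul, h σ hσ,
      one_mul, sub_self]

end IntLift

end Fermat.Agent.S31.H76
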